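import Fermat.Agent.LT.H129.Cartan
import Fermat.Agent.LT.H129.HeckeA0

/-!
# Row LT, helper886: the double coset of the Hecke operator `T_v` is stable under `h ↦ z h⁻¹`

OFF-MAIN.  Imports (byte-identical copies of helper129's files): `LT/H129/Cartan.lean`,
`LT/H129/HeckeA0.lean` (and their imports; vocabulary `LT/H556/A0.lean`).

* `exists_diag_unif886` : over a field `k` with a valuation in `ℤᵐ⁰`, an integral `g ∈ GL₂(k)`
  whose determinant has valuation `exp (-1)` lies in `GL₂(O) · diag(1, c) · GL₂(O)` for every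
  `c` of valuation `exp (-1)`;
* `inv_mem_doubleCoset886` : for two such `g`, `g'`: `g⁻¹ ∈ GL₂(O) · (c⁻¹ g') · GL₂(O)`;
* `exists_localMaxCpt_inv886` : the adelic form, in the vocabulary of A0: for `h`, `h'` local at
  `v`, integral, with determinant a uniformiser, and `z` a scalar uniformiser at `v`:
  `h⁻¹ = u₁ * (z⁻¹ * h') * u₂` with `u₁`, `u₂` local at `v` and in `GL₂(𝒪_v)`.
  (Used with `h' = h`: the adjoint of `T_v` is `S_v⁻¹ T_v`.)
-/

set_option autoImplicit false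

open Matrix

noncomputable section

namespace Fermat.Agent.LT.H886

open Fermat.Agent.LT.H129

section Field

variable {k : Type*} [Field k] [Valued k (WithZero (Multiplicative ℤ))]

/-- The valuation ring of `k`. -/
abbrev vO886 (k : Type*) [Field k] [Valued k (WithZero (Multiplicative ℤ))] :
    ValuationSubring k :=
  (Valued.v : Valuation k (WithZero (Multiplicative ℤ))).valuationSubring

theorem mem_vO886 (x : k) : x ∈ vO886 k ↔ Valued.v x ≤ 1 := Iff.rfl

omit [Valued k (WithZero (Multiplicative ℤ))] in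
theorem diag129_inv886 (x y : k) (hx : x ≠ 0) (hy : y ≠ 0) :
    (diag129 x y hx hy)⁻¹ = diag129 x⁻¹ y⁻¹ (inv_ne_zero hx) (inv_ne_zero hy) := by
  rw [inv_eq_iff_mul_eq_one]
  apply ext_mat129
  simp [diag129, Matrix.one_fin_two, hx, hy]

omit [Valued k (WithZero (Multiplicative ℤ))] in
theorem diag129_mul886 (x y x' y' : k) (hx : x ≠ 0) (hy : y ≠ 0) (hx' : x' ≠ 0) (hy' : y' ≠ 0) :
    diag129 x y hx hy * diag129 x' y' hx' hy'
      = diag129 (x * x') (y * y') (mul_ne_zero hx hx') (mul_ne_zero hy hy') := by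
  apply ext_mat129
  simp [diag129]

/-- A diagonal matrix with unit entries lies in `GL₂(O)`. -/
theorem isMaxCpt129_diag886 {x y : k} (hx : Valued.v x = 1) (hy : Valued.v y = 1)
    (hx0 : x ≠ 0) (hy0 : y ≠ 0) : IsMaxCpt129 (vO886 k) (diag129 x y hx0 hy0) := by
  have hxi : Valued.v x⁻¹ = 1 := by rw [map_inv₀, hx, inv_one]
  have hyi : Valued.v y⁻¹ = 1 := by rw [map_inv₀, hy, inv_one]
  refine ⟨isInt129_mkGL _ ?_ (vO886 k).zero_mem (vO886 k).zero_mem ?_, ?_⟩
  · exact (mem_vO886 x).mpr hx.le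
  · exact (mem_vO886 y).mpr hy.le
  · rw [diag129_inv886]
    exact isInt129_mkGL _ ((mem_vO886 _).mpr hxi.le) (vO886 k).zero_mem (vO886 k).zero_mem
      ((mem_vO886 _).mpr hyi.le)

/-- The determinant of an element of `GL₂(O)` is a unit. -/
theorem valued_det_of_isMaxCpt886 {u : GL (Fin 2) k} (hu : IsMaxCpt129 (vO886 k) u) :
    Valued.v (u : Matrix (Fin 2) (Fin 2) k).det = 1 := by
  have h1 : Valued.v (u : Matrix (Fin 2) (Fin 2) k).det ≤ 1 := det_mem_of_isInt129 hu.1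
  have h2 : Valued.v ((u⁻¹ : GL (Fin 2) k) : Matrix (Fin 2) (Fin 2) k).det ≤ 1 :=
    det_mem_of_isInt129 hu.2
  have h3 : (u : Matrix (Fin 2) (Fin 2) k).det
      * ((u⁻¹ : GL (Fin 2) k) : Matrix (Fin 2) (Fin 2) k).det = 1 := by
    rw [← Matrix.det_mul, ← Matrix.GeneralLinearGroup.coe_mul, mul_inv_cancel]
    simp
  have h4 : Valued.v (u : Matrix (Fin 2) (Fin 2) k).det
      * Valued.v ((u⁻¹ : GL (Fin 2) k) : Matrix (Fin 2) (Fin 2) k).det = 1 := by
    rw [← map_mul, h3, map_one]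
  refine le_antisymm h1 ?_
  calc (1 : WithZero (Multiplicative ℤ))
      = Valued.v (u : Matrix (Fin 2) (Fin 2) k).det
        * Valued.v ((u⁻¹ : GL (Fin 2) k) : Matrix (Fin 2) (Fin 2) k).det := h4.symm
    _ ≤ Valued.v (u : Matrix (Fin 2) (Fin 2) k).det * 1 := mul_le_mul' le_rfl h2
    _ = Valued.v (u : Matrix (Fin 2) (Fin 2) k).det := mul_one _

/-- **Normal form**: an integral matrix whose determinant has valuation `exp (-1)` lies in the
double coset of `diag(1, c)`, for every `c` of valuation `exp (-1)`. -/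
theorem exists_diag_unif886 (g : GL (Fin 2) k) (hg : IsInt129 (vO886 k) g)
    (hdet : Valued.v (g : Matrix (Fin 2) (Fin 2) k).det = WithZero.exp (-1 : ℤ))
    (c : k) (hc : Valued.v c = WithZero.exp (-1 : ℤ)) (hc0 : c ≠ 0) :
    ∃ k₁ k₂ : GL (Fin 2) k, IsMaxCpt129 (vO886 k) k₁ ∧ IsMaxCpt129 (vO886 k) k₂ ∧
      g = k₁ * diag129 1 c one_ne_zero hc0 * k₂ := by
  obtain ⟨k₁, k₂, x, y, hx, hy, h1, h2, hxy, hgk⟩ := cartan129 (vO886 k) g
  -- the diagonal part is integral
  have hD : diag129 x y hx hy = k₁⁻¹ * g * k₂⁻¹ := by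
    rw [hgk]; group
  have hDint : IsInt129 (vO886 k) (diag129 x y hx hy) := by
    rw [hD]
    exact isInt129_mul (isInt129_mul h1.2 hg) h2.2
  have hx1 : Valued.v x ≤ 1 := by
    have := hDint 0 0
    simpa [diag129] using this
  have hy1 : Valued.v y ≤ 1 := by
    have := hDint 1 1
    simpa [diag129] using this
  have hyx : Valued.v y ≤ Valued.v x := by
    have h := (mem_vO886 (y / x)).mp hxy
    rw [map_div₀] at h
    have hvx : (0 : WithZero (Multiplicative ℤ)) < Valued.v x :=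
      zero_lt_iff.mpr (by rwa [ne_eq, map_eq_zero])
    exact (div_le_one₀ hvx).mp h
  -- the determinant
  have hdetD : Valued.v x * Valued.v y = WithZero.exp (-1 : ℤ) := by
    have e : (g : Matrix (Fin 2) (Fin 2) k).det
        = (k₁ : Matrix (Fin 2) (Fin 2) k).det * (x * y) * (k₂ : Matrix (Fin 2) (Fin 2) k).det := by
      rw [hgk, Matrix.GeneralLinearGroup.coe_mul, Matrix.GeneralLinearGroup.coe_mul,
        Matrix.det_mul, Matrix.det_mul]
      congr 2
      simp [diag129, Matrix.det_fin_two_of]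
    rw [e, map_mul, map_mul, valued_det_of_isMaxCpt886 h1, valued_det_of_isMaxCpt886 h2, one_mul,
      mul_one, map_mul] at hdet
    exact hdet
  -- `x` is a unit
  have hxu : Valued.v x = 1 := by
    by_contra hne
    have hlt : Valued.v x < 1 := lt_of_le_of_ne hx1 hne
    have hx' : Valued.v x ≤ WithZero.exp (-1 : ℤ) := withZero_le_exp_neg_one129 hlt
    have hy' : Valued.v y ≤ WithZero.exp (-1 : ℤ) := le_trans hyx hx'
    have hprod : Valued.v x * Valued.v y ≤ WithZero.exp (-1 : ℤ) * WithZero.exp (-1 : ℤ) :=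
      mul_le_mul' hx' hy'
    rw [hdetD, ← WithZero.exp_add] at hprod
    have : (-1 : ℤ) ≤ -1 + -1 := WithZero.exp_le_exp.mp hprod
    omega
  have hyu : Valued.v y = WithZero.exp (-1 : ℤ) := by
    rw [hxu, one_mul] at hdetD
    exact hdetD
  -- `diag(x, y) = diag(x, y / c) * diag(1, c)`
  have hyc0 : y / c ≠ 0 := div_ne_zero hy hc0
  have hyc : Valued.v (y / c) = 1 := by
    rw [map_div₀, hyu, hc]
    exact div_self (by simp)
  have hsplit : diag129 x y hx hy = diag129 x (y / c) hx hyc0 * diag129 1 c one_ne_zero hc0 := by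
    rw [diag129_mul886]
    apply ext_mat129
    simp only [diag129, coe_mkGL129]
    rw [mul_one, div_mul_cancel₀ _ hc0]
  refine ⟨k₁ * diag129 x (y / c) hx hyc0, k₂,
    isMaxCpt129_mul h1 (isMaxCpt129_diag886 hxu hyc hx hyc0), h2, ?_⟩
  rw [hgk, hsplit]
  group

/-- **The double coset of `T_v` is stable under `g ↦ c g⁻¹`**: for integral `g`, `g'` with
determinants of valuation `exp (-1)` and `c` of valuation `exp (-1)`:
`g⁻¹ ∈ GL₂(O) · (c⁻¹ g') · GL₂(O)`. -/
theorem inv_mem_doubleCoset886 (g g' : GL (Fin 2) k) (hg : IsInt129 (vO886 k) g)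
    (hdet : Valued.v (g : Matrix (Fin 2) (Fin 2) k).det = WithZero.exp (-1 : ℤ))
    (hg' : IsInt129 (vO886 k) g')
    (hdet' : Valued.v (g' : Matrix (Fin 2) (Fin 2) k).det = WithZero.exp (-1 : ℤ))
    (c : k) (hc : Valued.v c = WithZero.exp (-1 : ℤ)) (hc0 : c ≠ 0) :
    ∃ κ₁ κ₂ : GL (Fin 2) k, IsMaxCpt129 (vO886 k) κ₁ ∧ IsMaxCpt129 (vO886 k) κ₂ ∧
      g⁻¹ = κ₁ * ((diag129 c c hc0 hc0)⁻¹ * g') * κ₂ := by
  obtain ⟨k₁, k₂, h1, h2, e⟩ := exists_diag_unif886 g hg hdet c hc hc0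
  obtain ⟨k₁', k₂', h1', h2', e'⟩ := exists_diag_unif886 g' hg' hdet' c hc hc0
  have hw := isMaxCpt129_weyl (F := k) (vO886 k)
  -- `diag(1, c)⁻¹ = w (c⁻¹ diag(1, c)) w`
  have eD : (diag129 1 c one_ne_zero hc0)⁻¹
      = weyl129 * ((diag129 c c hc0 hc0)⁻¹ * diag129 1 c one_ne_zero hc0) * weyl129 := by
    rw [diag129_inv886, diag129_inv886, diag129_mul886]
    apply ext_mat129
    rw [Matrix.GeneralLinearGroup.coe_mul, coe_weyl129_mul]
    simp [diag129, weyl129, hc0]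
  -- scalars are central
  have eS : ∀ a : GL (Fin 2) k, (diag129 c c hc0 hc0)⁻¹ * a = a * (diag129 c c hc0 hc0)⁻¹ := by
    intro a
    rw [diag129_inv886]
    apply ext_mat129
    rw [Matrix.GeneralLinearGroup.coe_mul, Matrix.GeneralLinearGroup.coe_mul]
    conv_lhs => rw [eta129 a]
    conv_rhs => rw [eta129 a]
    simp [diag129, mul_comm]
  refine ⟨k₂⁻¹ * weyl129 * k₁'⁻¹, k₂'⁻¹ * weyl129 * k₁⁻¹,
    isMaxCpt129_mul (isMaxCpt129_mul (isMaxCpt129_inv h2) hw) (isMaxCpt129_inv h1'),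
    isMaxCpt129_mul (isMaxCpt129_mul (isMaxCpt129_inv h2') hw) (isMaxCpt129_inv h1), ?_⟩
  have e3 : (diag129 c c hc0 hc0)⁻¹ * g'
      = k₁' * ((diag129 c c hc0 hc0)⁻¹ * diag129 1 c one_ne_zero hc0) * k₂' := by
    rw [e', ← mul_assoc, ← mul_assoc, eS k₁']
    group
  rw [e3]
  have e4 : g⁻¹ = k₂⁻¹ * (diag129 1 c one_ne_zero hc0)⁻¹ * k₁⁻¹ := by
    rw [e]; group
  rw [e4, eD]
  group

end Field

section Adelic

open IsDedekindDomain NumberField Fermat.Agent.LT.H556.A0

variable {K : Type} [Field K] [NumberField K] {v : HeightOneSpectrum (𝓞 K)}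

/-- The local embedding of an element of `GL₂(𝒪_v)` is local at `v` and lies in `GL₂(𝒪_v)`. -/
theorem isLocalMaxCptAt129_locFin886 {κ : GL (Fin 2) (v.adicCompletion K)}
    (h : IsMaxCpt129 (v.adicCompletionIntegers K) κ) : IsLocalMaxCptAt129 v (locFin129 v κ) := by
  refine ⟨isLocalAtFin_locFin129 v κ, ?_, ?_⟩
  · intro i j
    rw [finComp_locFin129]
    exact h.1 i j
  · intro i j
    rw [← map_inv, finComp_locFin129]
    exact h.2 i j

/-- **Adelic form.**  For `h`, `h'` supported at `v`, integral, with determinant a uniformiser,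
and `z` a scalar uniformiser at `v`: `h⁻¹ ∈ GL₂(𝒪_v) · (z⁻¹ h') · GL₂(𝒪_v)`. -/
theorem exists_localMaxCpt_inv886 {h h' z : G K}
    (hl : IsLocalAtFin v h) (hi : IsIntegralAt v h)
    (hd : Valued.v (finComp v h).det = WithZero.exp (-1 : ℤ))
    (hl' : IsLocalAtFin v h') (hi' : IsIntegralAt v h')
    (hd' : Valued.v (finComp v h').det = WithZero.exp (-1 : ℤ))
    (hz : IsScalarUniformizerAt v z) :
    ∃ u₁ u₂ : G K, IsLocalMaxCptAt129 v u₁ ∧ IsLocalMaxCptAt129 v u₂ ∧
      h⁻¹ = u₁ * (z⁻¹ * h') * u₂ := by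
  obtain ⟨hzl, c, hc, hzc⟩ := hz
  have hc0 : c ≠ 0 := by
    intro h0
    rw [h0, map_zero] at hc
    exact WithZero.exp_ne_zero hc.symm
  obtain ⟨κ₁, κ₂, m1, m2, e⟩ := inv_mem_doubleCoset886 (k := v.adicCompletion K)
    (finCompHom129 v h) (finCompHom129 v h') hi hd hi' hd' c hc hc0
  have ez : finCompHom129 v z = diag129 c c hc0 hc0 := by
    apply ext_mat129
    rw [coe_finCompHom129, hzc]
    ext i j
    fin_cases i <;> fin_cases j <;> simp [diag129]
  refine ⟨locFin129 v κ₁, locFin129 v κ₂, isLocalMaxCptAt129_locFin886 m1,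
    isLocalMaxCptAt129_locFin886 m2, ?_⟩
  have e1 : h⁻¹ = locFin129 v (finCompHom129 v h)⁻¹ := by
    rw [map_inv, ← eq_locFin129_of_isLocalAtFin hl]
  rw [e1, e, map_mul, map_mul, map_mul, map_inv, ← ez, ← eq_locFin129_of_isLocalAtFin hzl,
    ← eq_locFin129_of_isLocalAtFin hl']

end Adelic

end Fermat.Agent.LT.H886
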